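import Mathlib

/-!
# S15 (helper324): Mazur's "Step 3" WITHOUT Mordell–Weil

Abstract form of Step 3 of Mazur's torsion argument in which the hypothesis
"`J₀(N)(ℚ)` is finitely generated" (frozen statement S17) is **not used**.

In `H302.step_three_abstract` the descent enters through an element `t` of the Hecke ring
with `t • M ⊆ M_tors`; producing such a `t` from the descent inequality needs Nakayama, hence
finite generation of `M = J₀(N)(ℚ)`.  Here the descent enters only at level one: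

* `desc` : for every `z ∈ M` there is `s ∉ 𝔓` with `s • z ∈ M_tors + r • M`
  (`𝔓` ONE Eisenstein prime of residue characteristic `r`),

and finite generation is replaced by

* `fin₂, fin₃, finℓ` : the images of `M` under the three reduction maps are killed by a fixed
  positive integer `e` (the groups `J(𝔽_q)` are finite).

Iterating `desc` gives `s • D = τ + r ^ k • y` with `τ` torsion, for every `k`; for `k` large the
term `r ^ k • y` dies (up to a factor prime to `r`) under all three reductions.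

Main results: `desc_iterate`, `step_three_noMW`.
-/

set_option autoImplicit false

namespace Fermat.Agent.S15.H324

section

variable {T M : Type*} [CommRing T] [AddCommGroup M] [Module T M]

/-- A torsion element which reduces to `0` modulo two different primes `q₁ ≠ q₂` (reduction being
injective on torsion prime to the characteristic) is zero. -/
theorem eq_zero_of_torsion_of_red_two
    {J₁ J₂ : Type*} [AddCommGroup J₁] [AddCommGroup J₂]
    (red₁ : M →+ J₁) (red₂ : M →+ J₂) {q₁ q₂ : ℕ} (hq₁ : q₁.Prime) (hq₂ : q₂.Prime)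
    (hne : q₁ ≠ q₂)
    (inj₁ : ∀ (m : ℕ) (z : M), ¬ q₁ ∣ m → m • z = 0 → red₁ z = 0 → z = 0)
    (inj₂ : ∀ (m : ℕ) (z : M), ¬ q₂ ∣ m → m • z = 0 → red₂ z = 0 → z = 0)
    {z : M} {m : ℕ} (hm : 0 < m) (hmz : m • z = 0) (h₁ : red₁ z = 0) (h₂ : red₂ z = 0) :
    z = 0 := by
  obtain ⟨a, m₁, hm₁, rfl⟩ := Nat.exists_eq_pow_mul_and_not_dvd hm.ne' q₁ hq₁.ne_one
  have hz₁ : q₁ ^ a • z = 0 := by
    refine inj₁ m₁ (q₁ ^ a • z) hm₁ ?_ ?_
    · rw [← mul_smul, mul_comm]; exact hmz
    · rw [map_nsmul, h₁, smul_zero]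
  refine inj₂ (q₁ ^ a) z ?_ hz₁ h₂
  intro hdvd
  have := (Nat.prime_dvd_prime_iff_eq hq₂ hq₁).mp (hq₂.dvd_of_dvd_pow hdvd)
  exact hne this.symm

/-- **Iterated descent.**  If every element of `M` is, up to a factor outside the prime ideal
`P`, congruent to a torsion element modulo `r • M`, then the same holds modulo `r ^ k • M` for
every `k`. -/
theorem desc_iterate (r : ℕ) (P : Ideal T) [P.IsPrime]
    (desc : ∀ z : M, ∃ s : T, s ∉ P ∧ ∃ (τ y : M) (m : ℕ), 0 < m ∧ m • τ = 0 ∧
      s • z = τ + r • y)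
    (k : ℕ) (z : M) :
    ∃ s : T, s ∉ P ∧ ∃ (τ y : M) (m : ℕ), 0 < m ∧ m • τ = 0 ∧ s • z = τ + r ^ k • y := by
  induction k with
  | zero =>
    refine ⟨1, ?_, 0, z, 1, one_pos, by simp, by simp⟩
    intro h
    exact (Ideal.IsPrime.ne_top ‹P.IsPrime›) ((Ideal.eq_top_iff_one P).mpr h)
  | succ k ih =>
    obtain ⟨s, hs, τ, y, m, hm, hmτ, hsz⟩ := ih
    obtain ⟨s', hs', τ', y', m', hm', hmτ', hsy⟩ := desc y
    refine ⟨s' * s, ?_, s' • τ + r ^ k • τ', y', m * m', Nat.mul_pos hm hm', ?_, ?_⟩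
    · intro h
      rcases (Ideal.IsPrime.mem_or_mem ‹P.IsPrime› h) with h | h
      · exact hs' h
      · exact hs h
    · have h1 : (m * m') • (s' • τ) = 0 := by
        rw [mul_comm, mul_smul, smul_comm m s' τ, hmτ, smul_zero, smul_zero]
      have h2 : (m * m') • (r ^ k • τ') = 0 := by
        rw [mul_smul, smul_comm m' (r ^ k) τ', hmτ', smul_zero, smul_zero]
      rw [smul_add, h1, h2, add_zero]
    · rw [mul_smul, hsz, smul_add, smul_comm s' (r ^ k) y, hsy, smul_add, ← add_assoc,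
        pow_succ, mul_smul]

/-- **Mazur's Step 3 without Mordell–Weil, abstract form.**

* `M` plays the role of `J₀(N)(ℚ)`, a module over a Hecke ring `T`;
* `red₂, red₃, redℓ` are Hecke-equivariant reductions, injective on torsion prime to the
  characteristic (S18), with images killed by `e > 0` (finiteness of `J(𝔽_q)`);
* `P` is ONE Eisenstein prime, of residue characteristic `r`, and `desc` is the level-one
  descent statement "`(M / r M)_P` is generated by torsion";
* `c` is the cuspidal class: torsion of order prime to `ℓ`, with non-zero `P`-part (`hc`);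
* `D = cl((x) - (0))` reduces to `0` modulo `2` and `3`.

Conclusion: `D` does not reduce to `± c` modulo `ℓ`. -/
theorem step_three_noMW
    {J₂ J₃ Jℓ : Type*} [AddCommGroup J₂] [AddCommGroup J₃] [AddCommGroup Jℓ]
    [Module T J₂] [Module T J₃] [Module T Jℓ]
    (red₂ : M →ₗ[T] J₂) (red₃ : M →ₗ[T] J₃) (redℓ : M →ₗ[T] Jℓ) (ℓ : ℕ)
    (inj₂ : ∀ (m : ℕ) (z : M), ¬ 2 ∣ m → m • z = 0 → red₂ z = 0 → z = 0)
    (inj₃ : ∀ (m : ℕ) (z : M), ¬ 3 ∣ m → m • z = 0 → red₃ z = 0 → z = 0)
    (injℓ : ∀ (m : ℕ) (z : M), ¬ ℓ ∣ m → m • z = 0 → redℓ z = 0 → z = 0)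
    (e : ℕ) (he : 0 < e)
    (fin₂ : ∀ z, e • red₂ z = 0) (fin₃ : ∀ z, e • red₃ z = 0) (finℓ : ∀ z, e • redℓ z = 0)
    (r : ℕ) (hr : r.Prime) (P : Ideal T) [P.IsPrime]
    (desc : ∀ z : M, ∃ s : T, s ∉ P ∧ ∃ (τ y : M) (m : ℕ), 0 < m ∧ m • τ = 0 ∧
      s • z = τ + r • y)
    (c : M) (n : ℕ) (hn : ¬ ℓ ∣ n) (hnc : n • c = 0)
    (hc : ∀ s : T, s ∉ P → ∀ e' : ℕ, ¬ r ∣ e' → e' • (s • c) ≠ 0)
    (D : M) (hD₂ : red₂ D = 0) (hD₃ : red₃ D = 0) :
    redℓ D ≠ redℓ c ∧ redℓ D ≠ -redℓ c := by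
  -- split `e = r ^ a * e'` with `r ∤ e'`
  obtain ⟨a, e', he', rfl⟩ := Nat.exists_eq_pow_mul_and_not_dvd he.ne' r hr.ne_one
  -- descend `a` times
  obtain ⟨s, hs, τ, y, m, hm, hmτ, hsD⟩ := desc_iterate (M := M) r P desc a D
  -- `(r ^ a * e') • y` dies under every reduction
  have key : e' • (s • D) = e' • τ + (r ^ a * e') • y := by
    rw [hsD, smul_add, mul_comm, mul_smul]
  have kill₂ : red₂ (e' • τ) = 0 := by
    have h := congrArg red₂ key
    rw [map_add, map_nsmul, map_smul, hD₂, smul_zero, smul_zero, map_nsmul _ (r ^ a * e'),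
      fin₂ y, add_zero] at h
    exact h.symm
  have kill₃ : red₃ (e' • τ) = 0 := by
    have h := congrArg red₃ key
    rw [map_add, map_nsmul, map_smul, hD₃, smul_zero, smul_zero, map_nsmul _ (r ^ a * e'),
      fin₃ y, add_zero] at h
    exact h.symm
  -- hence the torsion element `e' • τ` vanishes
  have hτ : e' • τ = 0 := by
    refine eq_zero_of_torsion_of_red_two red₂.toAddMonoidHom red₃.toAddMonoidHom
      Nat.prime_two Nat.prime_three (by norm_num) inj₂ inj₃ hm ?_ kill₂ kill₃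
    rw [smul_comm, hmτ, smul_zero]
  -- so `e' • s • D` reduces to `0` modulo `ℓ`
  have hDℓ : redℓ (e' • (s • D)) = 0 := by
    rw [key, hτ, zero_add, map_nsmul, finℓ y]
  have hcℓ : redℓ D = redℓ c ∨ redℓ D = -redℓ c → False := by
    intro h
    have h1 : redℓ (e' • (s • c)) = 0 := by
      have h2 : redℓ (e' • (s • D)) = e' • (s • redℓ D) := by
        rw [map_nsmul, map_smul]
      rw [h2] at hDℓ
      rcases h with h | h
      · rw [map_nsmul, map_smul, ← h]; exact hDℓ
      · have h' : redℓ c = -redℓ D := by rw [h, neg_neg]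
        rw [map_nsmul, map_smul, h', smul_neg, smul_neg, hDℓ, neg_zero]
    have h3 : n • (e' • (s • c)) = 0 := by
      rw [smul_comm n e', smul_comm n s c, hnc, smul_zero, smul_zero]
    exact hc s hs e' he' (injℓ n _ hn h3 h1)
  exact ⟨fun h => hcℓ (Or.inl h), fun h => hcℓ (Or.inr h)⟩

end

end Fermat.Agent.S15.H324
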