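import Mathlib
import Fermat.Agent.S15.H324.StepThreeNoMW

/-!
# S15 (helper324): the algebra between DESC-CORE and `step_three_noMW` (no Mordell–Weil)

* `exists_notMem_smul_eq_zero` : `V` a module over a commutative ring `R`, `P` an ideal,
  `V[P] = 0`, `v ∈ V` with FINITE cyclic submodule `R v`  ⟹  `∃ s ∈ 1 + P`-coset (`s - 1 ∈ P`),
  `s • v = 0`.  (Nakayama on the stable term of the chain `P ^ k • R v`; no finite generation
  of `V` is needed.)
* `desc_of_core` : the hypothesis `desc` of `step_three_noMW` from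
  (core) "an element of `M` which is Eisenstein modulo `M_tors + r M` lies in `M_tors + r M`" and
  (fin)  "the Hecke ring acts on `M / (M_tors + r M)` with finite cyclic submodules"
  (e.g. because `T / r T` is finite, or through the Kummer embedding into `H¹(J[r])`).
-/

set_option autoImplicit false

namespace Fermat.Agent.S15.H324

section Nakayama

variable {R V : Type*} [CommRing R] [AddCommGroup V] [Module R V]

/-- If no nonzero element of `V` is killed by `P` and `P ^ k • x = 0`, then `x = 0`. -/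
theorem eq_zero_of_pow_smul_eq_zero (P : Ideal R)
    (hV : ∀ x : V, (∀ a ∈ P, a • x = 0) → x = 0) :
    ∀ (k : ℕ) (x : V), (∀ a ∈ P ^ k, a • x = 0) → x = 0 := by
  intro k
  induction k with
  | zero =>
    intro x hx
    have := hx 1 (by simp)
    simpa using this
  | succ k ih =>
    intro x hx
    refine ih x fun a ha => ?_
    refine hV (a • x) fun b hb => ?_
    rw [← mul_smul]
    exact hx (b * a) (by
      rw [pow_succ, mul_comm]
      exact Ideal.mul_mem_mul hb ha |> fun h => by simpa [mul_comm] using h)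

/-- **Nakayama without finite generation of the ambient module.** -/
theorem exists_notMem_smul_eq_zero (P : Ideal R)
    (hV : ∀ x : V, (∀ a ∈ P, a • x = 0) → x = 0) (v : V)
    (hfin : ((Submodule.span R {v} : Submodule R V) : Set V).Finite) :
    ∃ s : R, s - 1 ∈ P ∧ s • v = 0 := by
  classical
  set W : Submodule R V := Submodule.span R {v} with hW
  -- the chain `P ^ k • W` of subsets of the finite set `W` is eventually stationary
  have hWfin : Finite W := hfin
  have hfinSub : Finite (Submodule R W) :=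
    Finite.of_injective (fun N : Submodule R W => (N : Set W)) SetLike.coe_injective
  -- work inside `W`
  let N : ℕ → Submodule R W := fun k => (P ^ k) • (⊤ : Submodule R W)
  have hanti : Antitone N := by
    intro i j hij
    exact Submodule.smul_mono_left (Ideal.pow_le_pow_right hij)
  obtain ⟨k, hk⟩ : ∃ k, N (k + 1) = N k := by
    by_contra hne
    have hne' : ∀ n, N (n + 1) ≠ N n := fun n h => hne ⟨n, h⟩
    have hinj : StrictAnti N := strictAnti_nat_of_succ_lt fun n =>
      lt_of_le_of_ne (hanti (Nat.le_succ n)) (hne' n)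
    exact not_injective_infinite_finite N hinj.injective
  -- Nakayama for the finitely generated module `N k`
  have hfg : (N k).FG := by
    have hnoeth : IsNoetherian R W := isNoetherian_of_finite R W
    exact IsNoetherian.noetherian _
  have hle : N k ≤ P • N k := by
    have : P • N k = N (k + 1) := by
      change P • ((P ^ k) • (⊤ : Submodule R W)) = (P ^ (k + 1)) • (⊤ : Submodule R W)
      rw [← Submodule.mul_smul, pow_succ, mul_comm]
    rw [this, hk]
  obtain ⟨s, hs1, hs⟩ :=
    Submodule.exists_sub_one_mem_and_smul_eq_zero_of_fg_of_le_smul P (N k) hfg hle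
  refine ⟨s, hs1, ?_⟩
  -- `s • v` is killed by `P ^ k`
  refine eq_zero_of_pow_smul_eq_zero P hV k (s • v) fun a ha => ?_
  have hv : v ∈ W := Submodule.subset_span rfl
  have hmem : a • (⟨v, hv⟩ : W) ∈ N k :=
    Submodule.smul_mem_smul ha Submodule.mem_top
  have := hs _ hmem
  have h2 := congrArg (Subtype.val : W → V) this
  simpa [smul_smul, mul_comm] using h2

end Nakayama

section Desc

variable {T M : Type*} [CommRing T] [AddCommGroup M] [Module T M]

/-- The `T`-submodule of torsion elements of `M` (torsion as an abelian group). -/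
def torsionSub (T M : Type*) [CommRing T] [AddCommGroup M] [Module T M] : Submodule T M where
  carrier := {τ | ∃ m : ℕ, 0 < m ∧ m • τ = 0}
  zero_mem' := ⟨1, one_pos, by simp⟩
  add_mem' := by
    rintro x y ⟨m, hm, hx⟩ ⟨m', hm', hy⟩
    refine ⟨m * m', Nat.mul_pos hm hm', ?_⟩
    rw [smul_add, mul_comm, mul_smul, hx, smul_zero, mul_comm, mul_smul, hy, smul_zero, add_zero]
  smul_mem' := by
    rintro t x ⟨m, hm, hx⟩
    exact ⟨m, hm, by rw [smul_comm, hx, smul_zero]⟩

/-- `M_tors + r M`. -/
def torsPlus (T : Type*) {M : Type*} [CommRing T] [AddCommGroup M] [Module T M] (r : ℕ) :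
    Submodule T M :=
  torsionSub T M ⊔ (LinearMap.range ((r : T) • (LinearMap.id : M →ₗ[T] M)))

theorem mem_torsPlus_iff (r : ℕ) (z : M) :
    z ∈ torsPlus T (M := M) r ↔ ∃ (τ y : M) (m : ℕ), 0 < m ∧ m • τ = 0 ∧ z = τ + r • y := by
  unfold torsPlus
  rw [Submodule.mem_sup]
  constructor
  · rintro ⟨τ, ⟨m, hm, hτ⟩, w, ⟨y, rfl⟩, rfl⟩
    refine ⟨τ, y, m, hm, hτ, ?_⟩
    simp [Nat.cast_smul_eq_nsmul]
  · rintro ⟨τ, y, m, hm, hτ, rfl⟩
    refine ⟨τ, ⟨m, hm, hτ⟩, r • y, ⟨y, ?_⟩, rfl⟩
    simp [Nat.cast_smul_eq_nsmul]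

/-- **`desc` from DESC-CORE, without Mordell–Weil.**

* `core` : if `a • z ∈ M_tors + r M` for all `a ∈ P` then `z ∈ M_tors + r M`
  (the Eisenstein part of `M / (M_tors + r M)` has no socle: this is the descent);
* `fin`  : cyclic `T`-submodules of `M / (M_tors + r M)` are finite.

Then every `z` satisfies `s • z ∈ M_tors + r M` for some `s ≡ 1 mod P`. -/
theorem desc_of_core (r : ℕ) (P : Ideal T) [P.IsPrime]
    (core : ∀ z : M, (∀ a ∈ P, a • z ∈ torsPlus T (M := M) r) → z ∈ torsPlus T (M := M) r)
    (fin : ∀ z : M, ((Submodule.span T {(torsPlus T (M := M) r).mkQ z} :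
      Submodule T (M ⧸ torsPlus T (M := M) r)) : Set (M ⧸ torsPlus T (M := M) r)).Finite)
    (z : M) :
    ∃ s : T, s ∉ P ∧ ∃ (τ y : M) (m : ℕ), 0 < m ∧ m • τ = 0 ∧ s • z = τ + r • y := by
  have hV : ∀ x : M ⧸ torsPlus T (M := M) r, (∀ a ∈ P, a • x = 0) → x = 0 := by
    intro x hx
    obtain ⟨w, rfl⟩ := Submodule.mkQ_surjective _ x
    rw [Submodule.mkQ_apply, Submodule.Quotient.mk_eq_zero]
    refine core w fun a ha => ?_
    have := hx a ha
    rwa [Submodule.mkQ_apply, ← Submodule.Quotient.mk_smul, Submodule.Quotient.mk_eq_zero] at this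
  obtain ⟨s, hs1, hs⟩ := exists_notMem_smul_eq_zero P hV _ (fin z)
  refine ⟨s, ?_, ?_⟩
  · intro hsP
    have h1 : (1 : T) ∈ P := by
      have := P.sub_mem hsP hs1
      simpa using this
    exact (Ideal.IsPrime.ne_top ‹P.IsPrime›) ((Ideal.eq_top_iff_one P).mpr h1)
  · rw [Submodule.mkQ_apply, ← Submodule.Quotient.mk_smul, Submodule.Quotient.mk_eq_zero] at hs
    exact (mem_torsPlus_iff r _).mp hs

end Desc

end Fermat.Agent.S15.H324
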